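import Mathlib.RingTheory.DedekindDomain.Factorization
import Mathlib.RingTheory.ClassGroup.Basic
import Mathlib.Algebra.Module.Equiv.Basic
import Mathlib.RingTheory.Ideal.Operations

/-!
# Steinitz: two ideals

Ideals of one class are isomorphic modules; a class holds an ideal coprime to a given one; coprime
ideals `I`, `C` have `I × C ≅ R × I C`.
-/

set_option autoImplicit false

noncomputable section

namespace FA.Steinitz

open nonZeroDivisors

variable {R : Type*} [CommRing R] [IsDedekindDomain R]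

theorem ne_bot_of_mem (I : (Ideal R)⁰) : (I : Ideal R) ≠ ⊥ := nonZeroDivisors.coe_ne_zero I

/-- A nonzero ideal as an element of the monoid of nonzero ideals. -/
def nzIdeal {I : Ideal R} (h : I ≠ ⊥) : (Ideal R)⁰ := ⟨I, mem_nonZeroDivisors_of_ne_zero h⟩

/-- An ideal is isomorphic to its multiple by a nonzero element. -/
theorem nonempty_equiv_span_mul {x : R} (hx : x ≠ 0) (I : Ideal R) :
    Nonempty (I ≃ₗ[R] (Ideal.span {x} * I : Ideal R)) := by
  let f : I →ₗ[R] (Ideal.span {x} * I : Ideal R) :=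
    { toFun := fun a => ⟨x * (a : R),
        Ideal.mul_mem_mul (Ideal.mem_span_singleton_self x) a.2⟩
      map_add' := fun a b => Subtype.ext (mul_add x (a : R) b)
      map_smul' := fun c a => Subtype.ext (mul_left_comm x c (a : R)) }
  refine ⟨LinearEquiv.ofBijective f ⟨fun a b h => Subtype.ext ?_, fun b => ?_⟩⟩
  · exact mul_left_cancel₀ hx (congrArg Subtype.val h)
  · obtain ⟨a, ha, hab⟩ := Ideal.mem_span_singleton_mul.1 b.2
    exact ⟨⟨a, ha⟩, Subtype.ext hab⟩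

/-- Ideals in one class are isomorphic. -/
theorem nonempty_equiv_of_mk0_eq {I J : (Ideal R)⁰} (h : ClassGroup.mk0 I = ClassGroup.mk0 J) :
    Nonempty ((I : Ideal R) ≃ₗ[R] (J : Ideal R)) := by
  obtain ⟨x, y, hx, hy, hxy⟩ := ClassGroup.mk0_eq_mk0_iff.1 h
  obtain ⟨e⟩ := nonempty_equiv_span_mul hx (I : Ideal R)
  obtain ⟨e'⟩ := nonempty_equiv_span_mul hy (J : Ideal R)
  exact ⟨(e.trans (LinearEquiv.ofEq _ _ hxy)).trans e'.symm⟩

/-- A class holds an ideal coprime to a given one. -/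
theorem exists_coprime_mk0 (I J : (Ideal R)⁰) :
    ∃ C : (Ideal R)⁰, (I : Ideal R) ⊔ C = ⊤ ∧ ClassGroup.mk0 C = ClassGroup.mk0 J := by
  by_cases hI : (I : Ideal R) = ⊤
  · exact ⟨J, by rw [hI, top_sup_eq], rfl⟩
  obtain ⟨C₀, hC₀⟩ := ClassGroup.mk0_surjective (ClassGroup.mk0 J)⁻¹
  obtain ⟨a, ha⟩ := IsDedekindDomain.exists_sup_span_eq
    ((Ideal.mul_le_inf (I := (I : Ideal R)) (J := (C₀ : Ideal R))).trans inf_le_right)
    (mul_ne_zero (ne_bot_of_mem I) (ne_bot_of_mem C₀))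
  have hmem : a ∈ (C₀ : Ideal R) := ha ▸ Ideal.mem_sup_right (Ideal.mem_span_singleton_self a)
  have ha0 : a ≠ 0 := fun h => hI (by
    rw [h, Ideal.span_singleton_zero, sup_bot_eq] at ha
    exact mul_eq_right₀ (ne_bot_of_mem C₀) |>.1 ha |>.trans Ideal.one_eq_top)
  obtain ⟨C, hC⟩ := Ideal.dvd_iff_le.2 ((Ideal.span_singleton_le_iff_mem _).2 hmem)
  have hC0 : C ≠ ⊥ := fun h => by
    rw [h, Ideal.mul_bot, Ideal.span_singleton_eq_bot] at hC
    exact ha0 hC
  refine ⟨nzIdeal hC0, ?_, ?_⟩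
  · show (I : Ideal R) ⊔ C = ⊤
    rw [hC, mul_comm (I : Ideal R), ← Ideal.mul_sup] at ha
    exact (mul_eq_left₀ (ne_bot_of_mem C₀)).1 ha |>.trans Ideal.one_eq_top
  · have h : ClassGroup.mk0 (C₀ * nzIdeal hC0) = 1 := by
      refine (ClassGroup.mk0_eq_one_iff (C₀ * nzIdeal hC0).2).2 ?_
      exact ⟨⟨a, hC.symm⟩⟩
    rw [map_mul, hC₀, inv_mul_eq_one] at h
    exact h.symm

omit [IsDedekindDomain R] in
/-- Coprime ideals: `I × C ≅ R × I C`. -/
theorem nonempty_equiv_coprime {I C : Ideal R} (h : I ⊔ C = ⊤) :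
    Nonempty ((↥I × ↥C) ≃ₗ[R] R × ↥(I * C)) := by
  obtain ⟨i, hi, c, hc, hic⟩ : ∃ i ∈ I, ∃ c ∈ C, i + c = 1 :=
    Submodule.mem_sup.1 (h ▸ Submodule.mem_top : (1 : R) ∈ I ⊔ C)
  have h1 : ∀ x y : R, x ∈ I → y ∈ C → x * c - i * y ∈ I * C := fun x y hx hy =>
    sub_mem (Ideal.mul_mem_mul hx hc) (Ideal.mul_mem_mul hi hy)
  let g : R × ↥(I * C) →ₗ[R] ↥I × ↥C :=
    { toFun := fun p => (⟨p.1 * i + (p.2 : R), add_mem (I.mul_mem_left _ hi)
          ((Ideal.mul_le_inf p.2.2).1)⟩,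
        ⟨p.1 * c - (p.2 : R), sub_mem (C.mul_mem_left _ hc) ((Ideal.mul_le_inf p.2.2).2)⟩)
      map_add' := fun p q => Prod.ext (Subtype.ext (by
          show (p.1 + q.1) * i + ((p.2 : R) + q.2) = _ + _
          ring)) (Subtype.ext (by
          show (p.1 + q.1) * c - ((p.2 : R) + q.2) = _ + _
          ring))
      map_smul' := fun r p => Prod.ext (Subtype.ext (by
          show r * p.1 * i + r * (p.2 : R) = r * _
          ring)) (Subtype.ext (by
          show r * p.1 * c - r * (p.2 : R) = r * _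
          ring)) }
  refine ⟨(LinearEquiv.ofBijective g ⟨fun p q hpq => ?_, fun q => ?_⟩).symm⟩
  · have e1 : p.1 * i + (p.2 : R) = q.1 * i + q.2 := congrArg (fun z => ((z.1 : ↥I) : R)) hpq
    have e2 : p.1 * c - (p.2 : R) = q.1 * c - q.2 := congrArg (fun z => ((z.2 : ↥C) : R)) hpq
    have e : p.1 = q.1 := by linear_combination e1 + e2 + (q.1 - p.1) * hic
    refine Prod.ext e (Subtype.ext ?_)
    rw [e] at e1
    exact add_left_cancel e1
  · refine ⟨((q.1 : R) + q.2, ⟨(q.1 : R) * c - i * q.2, h1 _ _ q.1.2 q.2.2⟩),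
      Prod.ext (Subtype.ext ?_) (Subtype.ext ?_)⟩
    · show ((q.1 : R) + q.2) * i + ((q.1 : R) * c - i * q.2) = q.1
      linear_combination (q.1 : R) * hic
    · show ((q.1 : R) + q.2) * c - ((q.1 : R) * c - i * q.2) = q.2
      linear_combination (q.2 : R) * hic

/-- **Steinitz**: `I × J ≅ R × I J`. -/
theorem nonempty_equiv_prod (I J : (Ideal R)⁰) :
    Nonempty ((↥(I : Ideal R) × ↥(J : Ideal R)) ≃ₗ[R] R × ↥((I * J : (Ideal R)⁰) : Ideal R)) := by
  obtain ⟨C, hC, hcls⟩ := exists_coprime_mk0 I J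
  obtain ⟨e⟩ := nonempty_equiv_of_mk0_eq hcls
  obtain ⟨e'⟩ := nonempty_equiv_coprime hC
  obtain ⟨e''⟩ := nonempty_equiv_of_mk0_eq (I := I * C) (J := I * J) (by
    rw [map_mul, map_mul, hcls])
  exact ⟨(((LinearEquiv.refl R _).prodCongr e.symm).trans e').trans
    ((LinearEquiv.refl R R).prodCongr e'')⟩

end FA.Steinitz

end
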