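import Fermat.Agent.Steinitz.Structure
import Mathlib.LinearAlgebra.Matrix.Adjugate
import Mathlib.LinearAlgebra.FreeModule.Basic

/-!
# Steinitz: the class is an invariant

For an isomorphism `R ^ n × I ≅ R ^ n × J` and `0 ≠ a ∈ I` the determinant `d` of the images of the
standard vectors and of `a` has `d I = a J`.
-/

set_option autoImplicit false
set_option linter.style.haveILetI false

noncomputable section

namespace FA.Steinitz

open nonZeroDivisors Module Matrix

universe u v

variable {R : Type u} [CommRing R] [IsDedekindDomain R] {n : ℕ} {I J : Ideal R}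

omit [IsDedekindDomain R] in
/-- The coordinates of the model in `R ^ (n + 1)`. -/
def coords (n : ℕ) (I : Ideal R) : Model n I →ₗ[R] (Fin n ⊕ Unit → R) where
  toFun p := Sum.elim p.1 fun _ => (p.2 : R)
  map_add' p q := funext fun i => by cases i <;> rfl
  map_smul' c p := funext fun i => by cases i <;> rfl

omit [IsDedekindDomain R] in
/-- The matrix of the images of the standard vectors and of `a`. -/
def imgMatrix (f : Model n I →ₗ[R] Model n J) (a : ↥I) :
    Matrix (Fin n ⊕ Unit) (Fin n ⊕ Unit) R :=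
  Matrix.of fun i j =>
    Sum.elim (fun k => coords n J (f (Pi.single k 1, 0)) i) (fun _ => coords n J (f (0, a)) i) j

omit [IsDedekindDomain R] in
theorem imgMatrix_mulVec (f : Model n I →ₗ[R] Model n J) (a : ↥I) (p : Model n I) :
    imgMatrix f a *ᵥ Sum.elim ((a : R) • p.1) (fun _ => (p.2 : R)) =
      (a : R) • coords n J (f p) := by
  have e : (a : R) • p =
      ∑ k, ((a : R) * p.1 k) • ((Pi.single k 1, 0) : Model n I) +
        (p.2 : R) • ((0, a) : Model n I) := by
      refine Prod.ext ?_ (Subtype.ext ?_)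
      · funext i
        simp [Prod.fst_sum, Finset.sum_apply, Pi.single_apply]
      · simp [Prod.snd_sum, mul_comm]
  rw [← map_smul, ← map_smul, e, map_add, map_add, map_sum, map_sum]
  funext i
  simp only [Pi.add_apply, Finset.sum_apply, map_smul, Pi.smul_apply, smul_eq_mul]
  simp only [Matrix.mulVec, dotProduct, Fintype.sum_sum_type, imgMatrix, Matrix.of_apply,
    Sum.elim_inl, Sum.elim_inr, Pi.smul_apply, smul_eq_mul, Finset.univ_unique,
    Finset.sum_singleton]
  exact congrArg₂ (· + ·) (Finset.sum_congr rfl fun k _ => mul_comm _ _) (mul_comm _ _)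

omit [IsDedekindDomain R] in
theorem det_mul_mem (f : Model n I →ₗ[R] Model n J) (a : ↥I) :
    Ideal.span {(imgMatrix f a).det} * I ≤ Ideal.span {(a : R)} * J := by
  classical
  refine Ideal.span_singleton_mul_le_iff.2 fun x hx => ?_
  set M := imgMatrix f a
  have hcol : (x • fun i => M i (Sum.inr ())) = (a : R) • coords n J (f (0, ⟨x, hx⟩)) := by
    rw [← imgMatrix_mulVec f a (0, ⟨x, hx⟩)]
    funext i
    simp [Matrix.mulVec, dotProduct, Fintype.sum_sum_type, M, mul_comm]
  have h : x * M.det =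
      (a : R) * (M.updateCol (Sum.inr ()) (coords n J (f (0, ⟨x, hx⟩)))).det := by
    rw [← det_updateCol_smul, ← hcol, det_updateCol_smul, updateCol_eq_self]
  rw [mul_comm M.det, h]
  refine Ideal.mul_mem_mul (Ideal.mem_span_singleton_self _) ?_
  rw [det_eq_sum_mul_adjugate_row _ (Sum.inr ())]
  refine sum_mem fun j _ => Ideal.mul_mem_right _ _ ?_
  rw [updateCol_apply]
  split_ifs with hj
  · exact (f (0, ⟨x, hx⟩)).2.2
  · rcases j with k | u
    · exact (f (Pi.single k 1, 0)).2.2
    · exact (hj rfl).elim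

/-- **The class is an invariant.** -/
theorem mk0_eq_of_equiv {I J : (Ideal R)⁰}
    (e : Model n (I : Ideal R) ≃ₗ[R] Model n (J : Ideal R)) :
    ClassGroup.mk0 I = ClassGroup.mk0 J := by
  classical
  obtain ⟨a, ha, ha0⟩ := Submodule.exists_mem_ne_zero_of_ne_bot (ne_bot_of_mem I)
  obtain ⟨b, hb, hb0⟩ := Submodule.exists_mem_ne_zero_of_ne_bot (ne_bot_of_mem J)
  set M := imgMatrix e.toLinearMap ⟨a, ha⟩
  set N := imgMatrix e.symm.toLinearMap ⟨b, hb⟩
  have hprod : M * (diagonal (Sum.elim (fun _ => a) fun _ => 1) * N) =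
      diagonal (Sum.elim (fun _ => a) fun _ => a * b) := by
    have key : ∀ q : Model n (J : Ideal R),
        M *ᵥ (diagonal (Sum.elim (fun _ => a) fun _ => 1) *ᵥ coords n I (e.symm q)) =
          a • coords n J q := fun q => by
      have h := imgMatrix_mulVec e.toLinearMap ⟨a, ha⟩ (e.symm q)
      rw [LinearEquiv.coe_coe, e.apply_symm_apply] at h
      refine (congrArg (M *ᵥ ·) (funext fun i => ?_)).trans h
      cases i <;> simp [mulVec_diagonal, coords]
    ext i c
    show (M *ᵥ (diagonal (Sum.elim (fun _ => a) fun _ => 1) *ᵥ fun j => N j c)) i = _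
    rcases c with k | u
    · refine (congrFun (key (Pi.single k 1, 0)) i).trans ?_
      rcases i with l | u
      · rcases eq_or_ne l k with rfl | hlk
        · simp [coords]
        · simp [coords, hlk]
      · simp [coords]
    · refine (congrFun (key (0, ⟨b, hb⟩)) i).trans ?_
      rcases i with l | u
      · simp [coords]
      · simp [coords]
  have hdet : M.det * N.det = a * b := by
    have h := congrArg Matrix.det hprod
    simp only [det_mul, det_diagonal, Fintype.prod_sum_type, Sum.elim_inl, Sum.elim_inr,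
      Finset.prod_const, Finset.card_univ, Fintype.card_fin, Fintype.card_unit, pow_one,
      mul_one] at h
    refine mul_left_cancel₀ (pow_ne_zero n ha0) ?_
    linear_combination h
  have hM : M.det ≠ 0 := fun h => mul_ne_zero ha0 hb0 (by rw [← hdet, h, zero_mul])
  have h1 : Ideal.span {M.det} * (I : Ideal R) ≤ Ideal.span {a} * J :=
    det_mul_mem e.toLinearMap ⟨a, ha⟩
  have h2 : Ideal.span {N.det} * (J : Ideal R) ≤ Ideal.span {b} * I :=
    det_mul_mem e.symm.toLinearMap ⟨b, hb⟩
  have h3 : Ideal.span {b} * (Ideal.span {a} * (J : Ideal R)) ≤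
      Ideal.span {b} * (Ideal.span {M.det} * I) := by
    rw [← mul_assoc, Ideal.span_singleton_mul_span_singleton, mul_comm b, ← hdet,
      ← Ideal.span_singleton_mul_span_singleton, mul_assoc, mul_left_comm (Ideal.span {b})]
    exact Ideal.mul_mono_right h2
  have h4 : Ideal.span {a} * (J : Ideal R) ≤ Ideal.span {M.det} * I :=
    Ideal.dvd_iff_le.1 ((mul_dvd_mul_iff_left (by simpa using hb0)).1 (Ideal.dvd_iff_le.2 h3))
  exact ClassGroup.mk0_eq_mk0_iff.2 ⟨M.det, a, hM, ha0, le_antisymm h1 h4⟩

theorem model_equiv_iff (n : ℕ) {I J : (Ideal R)⁰} :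
    Nonempty (Model n (I : Ideal R) ≃ₗ[R] Model n (J : Ideal R)) ↔
      ClassGroup.mk0 I = ClassGroup.mk0 J :=
  ⟨fun ⟨e⟩ => mk0_eq_of_equiv e, fun h =>
    (nonempty_equiv_of_mk0_eq h).map fun e => (LinearEquiv.refl R _).prodCongr e⟩

/-- Each module has one class. -/
theorem existsUnique_class {M : Type v} [AddCommGroup M] [Module R M] [Module.Finite R M]
    [IsTorsionFree R M] (hM : finrank R M = n + 1) :
    ∃! c : ClassGroup R, ∃ I : (Ideal R)⁰,
      ClassGroup.mk0 I = c ∧ Nonempty (M ≃ₗ[R] Model n (I : Ideal R)) := by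
  obtain ⟨I, ⟨e⟩⟩ := exists_model n M hM
  refine ⟨ClassGroup.mk0 I, ⟨I, rfl, ⟨e⟩⟩, ?_⟩
  rintro _ ⟨J, rfl, ⟨e'⟩⟩
  exact ((model_equiv_iff n).1 ⟨e.symm.trans e'⟩).symm

/-- The model is free iff its class is trivial. -/
theorem model_free_iff (n : ℕ) (I : (Ideal R)⁰) :
    Free R (Model n (I : Ideal R)) ↔ ClassGroup.mk0 I = 1 := by
  have htop : ClassGroup.mk0 (1 : (Ideal R)⁰) = 1 := map_one _
  have e1 : Nonempty (Model n ((1 : (Ideal R)⁰) : Ideal R) ≃ₗ[R] (Fin (n + 1) → R)) :=
    ⟨((LinearEquiv.refl R (Fin n → R)).prodCongr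
      ((LinearEquiv.ofEq _ _ (by simp [Ideal.one_eq_top])).trans Submodule.topEquiv)).trans
      ((LinearEquiv.prodComm R _ _).trans (Fin.consLinearEquiv R fun _ : Fin (n + 1) => R))⟩
  obtain ⟨e1⟩ := e1
  refine ⟨fun h => ?_, fun h => ?_⟩
  · obtain ⟨e⟩ : Nonempty (Model n (I : Ideal R) ≃ₗ[R] (Fin (n + 1) → R)) := by
      haveI := h
      refine FiniteDimensional.nonempty_linearEquiv_of_finrank_eq ?_
      rw [finrank_model n (ne_bot_of_mem I), finrank_fin_fun]
    exact ((model_equiv_iff n).1 ⟨e.trans e1.symm⟩).trans htop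
  · obtain ⟨e⟩ := (model_equiv_iff n).2 (h.trans htop.symm)
    exact Free.of_equiv (e.trans e1).symm

/-- **Stably free modules are free.** -/
theorem free_of_stably_free {M : Type v} [AddCommGroup M] [Module R M] [Module.Finite R M]
    (k : ℕ) (h : Free R (M × (Fin k → R))) : Free R M := by
  haveI := h
  haveI : IsTorsionFree R M := by
    refine Function.Injective.moduleIsTorsionFree (LinearMap.inl R M (Fin k → R))
      LinearMap.inl_injective fun r m => map_smul _ r m
  rcases subsingleton_or_nontrivial M with hM | hM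
  · exact Free.of_subsingleton R M
  obtain ⟨m, hm⟩ : ∃ m, finrank R M = m + 1 :=
    ⟨finrank R M - 1, (Nat.sub_add_cancel (finrank_pos (R := R) (M := M))).symm⟩
  obtain ⟨I, ⟨e⟩⟩ := exists_model m M hm
  have e2 : (M × (Fin k → R)) ≃ₗ[R] Model (k + m) (I : Ideal R) :=
    (((LinearEquiv.prodComm R _ _).trans ((LinearEquiv.refl R _).prodCongr e)).trans
      (LinearEquiv.prodAssoc R _ _ _).symm).trans
      (((LinearEquiv.sumArrowLequivProdArrow _ _ R R).symm.trans
        (LinearEquiv.funCongrLeft R R finSumFinEquiv.symm)).prodCongr (LinearEquiv.refl R _))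
  have hI := (model_free_iff (k + m) I).1 (Free.of_equiv e2)
  haveI := (model_free_iff m I).2 hI
  exact Free.of_equiv e.symm

end FA.Steinitz

end
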