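import Fermat.Agent.Steinitz.Basic
import Mathlib.RingTheory.Flat.TorsionFree
import Mathlib.RingTheory.Flat.EquationalCriterion
import Mathlib.LinearAlgebra.Dimension.Localization
import Mathlib.LinearAlgebra.Dimension.RankNullity
import Mathlib.LinearAlgebra.Pi

/-!
# Steinitz: the structure of torsion-free modules

A torsion-free finite module is projective, so a nonzero functional splits off an ideal; by
`I × J ≅ R × I J` a module of rank `n + 1` is `R ^ n × I`.
-/

set_option autoImplicit false
set_option linter.style.haveILetI false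

noncomputable section

namespace FA.Steinitz

open nonZeroDivisors Module

universe u v

variable {R : Type u} [CommRing R] [IsDedekindDomain R]

omit [IsDedekindDomain R] in
/-- The standard module of rank `n + 1` with class `I`. -/
abbrev Model (n : ℕ) (I : Ideal R) : Type u := (Fin n → R) × ↥I

theorem finrank_ideal {I : Ideal R} (hI : I ≠ ⊥) : finrank R I = 1 := by
  refine le_antisymm ((Submodule.finrank_le I).trans_eq (finrank_self R)) ?_
  obtain ⟨x, hx, hx0⟩ := Submodule.exists_mem_ne_zero_of_ne_bot hI
  exact finrank_pos_iff_exists_ne_zero.2 ⟨⟨x, hx⟩, fun h => hx0 (congrArg Subtype.val h)⟩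

theorem projective_of_torsionFree (M : Type v) [AddCommGroup M] [Module R M] [Module.Finite R M]
    [IsTorsionFree R M] : Projective R M :=
  haveI := Module.finitePresentation_of_finite R M
  Module.Flat.projective_of_finitePresentation

/-- A nonzero finite torsion-free module splits off an ideal. -/
theorem exists_split (M : Type v) [AddCommGroup M] [Module R M] [Module.Finite R M]
    [IsTorsionFree R M] [Nontrivial M] :
    ∃ (K : Submodule R M) (J : (Ideal R)⁰),
      Nonempty (M ≃ₗ[R] ↥K × ↥(J : Ideal R)) ∧ finrank R M = finrank R K + 1 := by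
  obtain ⟨s, hs⟩ := (projective_def' (R := R) (P := M)).1 (projective_of_torsionFree M)
  obtain ⟨m, hm⟩ := exists_ne (0 : M)
  obtain ⟨k, hk⟩ : ∃ k, s m k ≠ 0 := by
    by_contra! h
    refine hm ((LinearMap.congr_fun hs m).symm.trans ?_)
    rw [LinearMap.comp_apply, show s m = 0 from Finsupp.ext h, map_zero]
  set f : M →ₗ[R] R := Finsupp.lapply k ∘ₗ s
  have hJ : LinearMap.range f ≠ ⊥ := fun h => hk (by
    have h1 : f m ∈ LinearMap.range f := LinearMap.mem_range_self f m
    rwa [h, Submodule.mem_bot] at h1)
  haveI := projective_of_torsionFree (R := R) (LinearMap.range f)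
  obtain ⟨g, hg⟩ := projective_lifting_property f.rangeRestrict LinearMap.id
    f.surjective_rangeRestrict
  have hfg : ∀ j : LinearMap.range f, f (g j) = j := fun j =>
    congrArg Subtype.val (LinearMap.congr_fun hg j)
  refine ⟨LinearMap.ker f, nzIdeal (I := LinearMap.range f) hJ,
    ⟨(LinearEquiv.ofBijective ((LinearMap.ker f).subtype.coprod g) ⟨fun p q h => ?_,
      fun x => ?_⟩).symm⟩, ?_⟩
  · simp only [LinearMap.coprod_apply, Submodule.subtype_apply] at h
    have e : p.2 = q.2 := by
      have h2 := congrArg f h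
      rw [map_add, map_add, LinearMap.mem_ker.1 p.1.2, LinearMap.mem_ker.1 q.1.2, zero_add,
        zero_add, hfg, hfg] at h2
      exact Subtype.ext h2
    rw [e] at h
    exact Prod.ext (Subtype.ext (add_right_cancel h)) e
  · exact ⟨(⟨x - g ⟨f x, LinearMap.mem_range_self f x⟩, by simp [hfg]⟩,
      ⟨f x, LinearMap.mem_range_self f x⟩), by simp⟩
  · rw [← (LinearMap.ker f).finrank_quotient_add_finrank,
      LinearEquiv.finrank_eq f.quotKerEquivRange, finrank_ideal hJ, add_comm]

/-- The product with one more ideal. -/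
theorem nonempty_model_prod (n : ℕ) (I J : (Ideal R)⁰) :
    Nonempty ((Model n (I : Ideal R) × ↥(J : Ideal R)) ≃ₗ[R]
      Model (n + 1) ((I * J : (Ideal R)⁰) : Ideal R)) := by
  obtain ⟨e⟩ := nonempty_equiv_prod I J
  exact ⟨((LinearEquiv.prodAssoc R _ _ _).trans ((LinearEquiv.refl R _).prodCongr e)).trans
    ((LinearEquiv.prodAssoc R _ _ _).symm.trans (((LinearEquiv.prodComm R _ _).trans
      (Fin.consLinearEquiv R fun _ : Fin (n + 1) => R)).prodCongr (LinearEquiv.refl R _)))⟩

/-- **Steinitz**: a module of rank `n + 1` is `R ^ n × I`. -/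
theorem exists_model : ∀ (n : ℕ) (M : Type v) [AddCommGroup M] [Module R M] [Module.Finite R M]
    [IsTorsionFree R M], finrank R M = n + 1 →
      ∃ I : (Ideal R)⁰, Nonempty (M ≃ₗ[R] Model n (I : Ideal R)) := by
  intro n
  induction n with
  | zero =>
    intro M _ _ _ _ hM
    haveI : Nontrivial M := nontrivial_of_finrank_pos (R := R) (by omega)
    obtain ⟨K, J, ⟨e⟩, hK⟩ := exists_split (R := R) M
    haveI : Subsingleton K := finrank_zero_iff.1 (by omega : finrank R K = 0)
    haveI : Unique K := uniqueOfSubsingleton 0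
    exact ⟨J, ⟨e.trans ((LinearEquiv.ofSubsingleton ↥K (Fin 0 → R)).prodCongr
      (LinearEquiv.refl R _))⟩⟩
  | succ n ih =>
    intro M _ _ _ _ hM
    haveI : Nontrivial M := nontrivial_of_finrank_pos (R := R) (by omega)
    obtain ⟨K, J, ⟨e⟩, hK⟩ := exists_split (R := R) M
    obtain ⟨I, ⟨e'⟩⟩ := ih K (by omega)
    obtain ⟨e''⟩ := nonempty_model_prod n I J
    exact ⟨I * J, ⟨(e.trans (e'.prodCongr (LinearEquiv.refl R _))).trans e''⟩⟩

/-- The model has rank `n + 1`. -/
theorem finrank_model (n : ℕ) {I : Ideal R} (hI : I ≠ ⊥) : finrank R (Model n I) = n + 1 := by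
  rw [← (LinearMap.ker (LinearMap.fst R (Fin n → R) ↥I)).finrank_quotient_add_finrank,
    LinearEquiv.finrank_eq (LinearMap.quotKerEquivOfSurjective _ LinearMap.fst_surjective),
    finrank_fin_fun, LinearMap.ker_fst, LinearMap.finrank_range_of_inj LinearMap.inr_injective,
    finrank_ideal hI]

end FA.Steinitz

end
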